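import Fermat.Agent.S37.H826.RimX
import Fermat.Agent.S37.Rim.H939.LPSEP

/-!
# S37 / node_rim, leaves LP and SEP for an ARBITRARY coordinate pair `(x, y)` (helper826)

The `(x, y)`-generic version of `Rim/H939/LPSEP.lean` (helper939; same proof, `(j, j̄)` replaced
by `(x, y)`):

* `NormFinX A M x y` : every `z ∈ F_{M,k}` regular at all places where `y` is regular is `ρ b` for
  some `b ∈ V` regular on every tube of `x` over `c ∈ k`;
* `NormInfX A M x y` : every `z ∈ F_{M,k}` regular at all places which are not zeros of `y` is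
  `ρ b` for some `b ∈ V` regular on the tube of `x` over `∞`;
* `lp_of_normX`, `sep_of_normX` : the leaves `LPStatementX`, `SEPStatementX` of `RimX.lean`;
* `node_rim_of_fc_normX` : `FCStatementX` + `NormFinX` + `NormInfX` ⟹ `ReductionInputsModL A M`.

Use: `ℓ ≥ 5` with `(x, y) = (j, j̄)`; `ℓ = 3`, `2 ∣ M` with `x = t₂`; `ℓ = 2`, `3 ∣ M` with
`x = t₃` (`y` the coefficientwise reduction of `x`).
-/

set_option autoImplicit false
set_option synthInstance.maxHeartbeats 400000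
set_option maxHeartbeats 1600000
set_option linter.unusedSectionVars false
set_option linter.style.haveILetI false

noncomputable section

namespace Fermat.Agent.S37.H826

open AlgebraicCurve ModularCurve HahnSeries IsLocalRing Fermat.Agent.S37.H940
open Fermat.Agent.Lib.RR Fermat.Agent.S37.Rim Fermat.Agent.S37.Rim.H939

/-- Normality of the special fibre, finite chart of the coordinate pair `(x, y)` (weak form). -/
def NormFinX (A : ValuationSubring Qb) (M : ℕ) (x : FM M) (y : FkM A M) : Prop :=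
  ∀ z : FkM A M, (∀ Q : Place (kA A) (FkM A M), 0 ≤ Q.ord y → 0 ≤ Q.ord z) →
    ∃ b : (ctx A M).V, (∀ c : kA A, ∀ P ∈ tubeX A M x (some c), 0 ≤ P.ord (b : FM M)) ∧
      (ctx A M).ρ b = z

/-- Normality of the special fibre, chart at infinity of the pair `(x, y)` (weak form). -/
def NormInfX (A : ValuationSubring Qb) (M : ℕ) (x : FM M) (y : FkM A M) : Prop :=
  ∀ z : FkM A M, (∀ Q : Place (kA A) (FkM A M), Q.ord y ≤ 0 → 0 ≤ Q.ord z) →
    ∃ b : (ctx A M).V, (∀ P ∈ tubeX A M x none, 0 ≤ P.ord (b : FM M)) ∧ (ctx A M).ρ b = z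

theorem normFinX_j (A : ValuationSubring Qb) (M : ℕ) [NeZero M] :
    NormFinX A M (xF M) (xk A M) ↔ NormFin A M := by
  unfold NormFinX NormFin
  simp only [tubeX_j]

theorem normInfX_j (A : ValuationSubring Qb) (M : ℕ) [NeZero M] :
    NormInfX A M (xF M) (xk A M) ↔ NormInf A M := by
  unfold NormInfX NormInf
  simp only [tubeX_j]

variable (M ℓ : ℕ) [NeZero M] (hℓ : ℓ.Prime) (hℓM : ¬ ℓ ∣ M)
  (A : ValuationSubring Qb) (hA : A.LiesOverPrime ℓ)
  (x : FM M) (y : FkM A M) (hy : Transcendental (kA A) y)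

include hℓ hℓM hA hy

/-- In each chart: a place outside the chart, the points over `c`, and the lifting property. -/
theorem exists_chart_dataX (hfin : NormFinX A M x y) (hinf : NormInfX A M x y)
    (c : Option (kA A)) :
    ∃ (v₀ : Place (kA A) (FkM A M)) (𝔊 : Finset (Place (kA A) (FkM A M))),
      v₀ ∉ 𝔊 ∧ (∀ Q, Q ∈ 𝔊 ↔ IsPtX A M y c Q) ∧
      ∀ z : FkM A M, (∀ w : Place (kA A) (FkM A M), w ≠ v₀ → 0 ≤ w.ord z) →
        ∃ b : (ctx A M).V, (∀ P ∈ tubeX A M x c, 0 ≤ P.ord (b : FM M)) ∧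
          (ctx A M).ρ b = z := by
  have hchar := hchar_residue M ℓ hℓ hℓM A hA
  obtain ⟨𝔊, -, h𝔊⟩ := exists_ptsX M ℓ hℓ hℓM A hA y hy c
  cases c with
  | some c =>
    obtain ⟨v₀, hv₀⟩ := Fermat.Agent.S18.H905.exists_place_ord_neg_fullC (kA A) M hchar y hy
    refine ⟨v₀, 𝔊, ?_, h𝔊, ?_⟩
    · intro hmem
      have h1 : InMax v₀ (y - algebraMap (kA A) (FkM A M) c) := (h𝔊 v₀).1 hmem
      have h2 : 0 ≤ v₀.ord y := ord_nonneg_of_inMax_sub (P := v₀) h1
      omega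
    · intro z hz
      obtain ⟨b, hb, hρ⟩ := hfin z (fun Q hQ => hz Q (fun h => by rw [h] at hQ; omega))
      exact ⟨b, hb c, hρ⟩
  | none =>
    obtain ⟨v₀, hv₀⟩ := Fermat.Agent.S18.H905.exists_place_ord_pos_fullC (kA A) M hchar y hy
    refine ⟨v₀, 𝔊, ?_, h𝔊, ?_⟩
    · intro hmem
      have h1 : v₀.ord y < 0 := (h𝔊 v₀).1 hmem
      omega
    · intro z hz
      obtain ⟨b, hb, hρ⟩ := hinf z (fun Q hQ => hz Q (fun h => by rw [h] at hQ; omega))
      exact ⟨b, hb, hρ⟩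

/-- **LEAF LP for `(x, y)` from normality.** -/
theorem lp_of_normX (hfin : NormFinX A M x y) (hinf : NormInfX A M x y) :
    LPStatementX A M x y := by
  haveI : IsAlgClosed (kA A) := Fermat.Agent.S18.H9.resAlgClosed _ A
  haveI : FF1 (kA A) (FkM A M) := Fermat.Agent.S18.H383.ff1_residue M ℓ hℓ hℓM A hA
  intro c Q hQ
  obtain ⟨v₀, 𝔊, hv₀, h𝔊, hlift⟩ := exists_chart_dataX M ℓ hℓ hℓM A hA x y hy hfin hinf c
  obtain ⟨z, hz1, hz2, hz3⟩ := exists_localParam v₀ 𝔊 hv₀ Q ((h𝔊 Q).2 hQ)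
  obtain ⟨b, hb, hρ⟩ := hlift z hz1
  refine ⟨b, hb, by rw [hρ]; exact hz2, fun Q' hQ' hne => ?_⟩
  rw [hρ]
  exact hz3 Q' ((h𝔊 Q').2 hQ') hne

/-- **LEAF SEP for `(x, y)` from normality.** -/
theorem sep_of_normX (hfin : NormFinX A M x y) (hinf : NormInfX A M x y) :
    SEPStatementX A M x y := by
  haveI : IsAlgClosed (kA A) := Fermat.Agent.S18.H9.resAlgClosed _ A
  haveI : FF1 (kA A) (FkM A M) := Fermat.Agent.S18.H383.ff1_residue M ℓ hℓ hℓM A hA
  intro c
  obtain ⟨v₀, 𝔊, hv₀, h𝔊, hlift⟩ := exists_chart_dataX M ℓ hℓ hℓM A hA x y hy hfin hinf c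
  obtain ⟨z, hz1, hz2⟩ := exists_separator v₀ 𝔊 hv₀
  obtain ⟨b, hb, hρ⟩ := hlift z hz1
  refine ⟨b, hb, fun Q Q' hQ hQ' a ha ha' => ?_⟩
  rw [hρ] at ha ha'
  exact hz2 Q ((h𝔊 Q).2 hQ) Q' ((h𝔊 Q').2 hQ') a ha ha'

/-- **node_rim from FC and normality, for an arbitrary coordinate pair `(x, y)`.** -/
theorem node_rim_of_fc_normX (hFC : FCStatementX A M x y) (hfin : NormFinX A M x y)
    (hinf : NormInfX A M x y) : ReductionInputsModL A M :=
  node_rim_of_leavesX M ℓ hℓ hℓM A hA x y hy hFC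
    (lp_of_normX M ℓ hℓ hℓM A hA x y hy hfin hinf)
    (sep_of_normX M ℓ hℓ hℓM A hA x y hy hfin hinf)

end Fermat.Agent.S37.H826
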