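import Fermat.Agent.S37.Rim.Assembly

/-!
# S37 / node_rim for an ARBITRARY coordinate `x` (helper826)

`Rim/Spec.lean` + `Rim/Assembly.lean` (squad-lead helper39) are written for the fibres of the
coordinate `j`.  For `ℓ = 3` (`2 ∣ M`) and `ℓ = 2` (`3 ∣ M`) the good model is only accessible in
the coordinate `x = t₂` resp. `x = t₃` (the branch values `0, 1728` of `j` collide mod `2, 3`),
and `ReductionInputsModL A M` does not mention any coordinate.  This file is the SAME assembly
with the pair `(j, j̄)` replaced by an arbitrary pair `(x, y)`, `x ∈ F_M`, `y ∈ F_{M,k}`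
transcendental over `k`:

* `tubeX A M x`, `IsPtX A M y`            : tubes / points of the special fibre over `c ∈ k ∪ {∞}`
* `FCStatementX`, `LPStatementX`, `SEPStatementX` : the three leaves for the pair `(x, y)`
* `node_rim_of_leavesX`                   : the three leaves for `(x, y)` ⟹ `ReductionInputsModL A M`
* `fcStatementX_j`, `lpStatementX_j`, `sepStatementX_j` : for `(x, y) = (j, j̄)` the leaves are
  (definitionally) the leaves of `Rim/Spec.lean`.

No relation between `x` and `y` is needed by the assembly itself (it is hidden in the leaves: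
in practice `x ∈ V` and `y = ρ x`).
-/

set_option autoImplicit false
set_option synthInstance.maxHeartbeats 400000
set_option maxHeartbeats 1600000

noncomputable section

namespace Fermat.Agent.S37.H826

open AlgebraicCurve ModularCurve HahnSeries IsLocalRing Fermat.Agent.S37.H940
open Fermat.Agent.Lib.RR Fermat.Agent.S37.Rim

/-- the tube of the coordinate `x` over `c ∈ k ∪ {∞}` (`none = ∞`) -/
def tubeX (A : ValuationSubring Qb) (M : ℕ) (x : FM M) :
    Option (kA A) → Set (Place Qb (FM M))
  | some c => {P | ∃ a : A, residue A a = c ∧ InMax P (x - algebraMap Qb (FM M) (a : Qb))}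
  | none => {P | ¬ ∃ a : A, InMax P (x - algebraMap Qb (FM M) (a : Qb))}

/-- `Q` is a point of the special fibre over `c ∈ k ∪ {∞}`, for the coordinate `y` -/
def IsPtX (A : ValuationSubring Qb) (M : ℕ) (y : FkM A M) :
    Option (kA A) → Place (kA A) (FkM A M) → Prop
  | some c => fun Q => InMax Q (y - algebraMap (kA A) (FkM A M) c)
  | none => fun Q => Q.ord y < 0

/-- **LEAF FC for the pair `(x, y)`** (conservation of number in the fibres of `x`). -/
def FCStatementX (A : ValuationSubring Qb) (M : ℕ) (x : FM M) (y : FkM A M) : Prop :=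
  ∀ (c : Option (kA A)) (𝔊 : Finset (Place (kA A) (FkM A M))), (∀ Q, Q ∈ 𝔊 ↔ IsPtX A M y c Q) →
    ∀ u : (ctx A M).V, (ctx A M).ρ u ≠ 0 →
      ∑ᶠ P ∈ tubeX A M x c, P.ord (u : FM M) = ∑ Q ∈ 𝔊, Q.ord ((ctx A M).ρ u)

/-- **LEAF LP for the pair `(x, y)`** (local parameters lift). -/
def LPStatementX (A : ValuationSubring Qb) (M : ℕ) (x : FM M) (y : FkM A M) : Prop :=
  ∀ (c : Option (kA A)) (Q : Place (kA A) (FkM A M)), IsPtX A M y c Q →
    ∃ t : (ctx A M).V, (∀ P ∈ tubeX A M x c, 0 ≤ P.ord (t : FM M)) ∧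
      Q.ord ((ctx A M).ρ t) = 1 ∧
      ∀ Q', IsPtX A M y c Q' → Q' ≠ Q → Q'.ord ((ctx A M).ρ t) = 0

/-- **LEAF SEP for the pair `(x, y)`** (separation). -/
def SEPStatementX (A : ValuationSubring Qb) (M : ℕ) (x : FM M) (y : FkM A M) : Prop :=
  ∀ c : Option (kA A), ∃ s : (ctx A M).V, (∀ P ∈ tubeX A M x c, 0 ≤ P.ord (s : FM M)) ∧
    ∀ Q Q', IsPtX A M y c Q → IsPtX A M y c Q' → ∀ a : kA A,
      InMax Q ((ctx A M).ρ s - algebraMap (kA A) (FkM A M) a) →
      InMax Q' ((ctx A M).ρ s - algebraMap (kA A) (FkM A M) a) → Q = Q'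

/-! ### the pair `(j, j̄)` gives back `Rim/Spec.lean` -/

theorem tubeX_j (A : ValuationSubring Qb) (M : ℕ) [NeZero M] (c : Option (kA A)) :
    tubeX A M (xF M) c = tube A M c := by
  cases c <;> rfl

theorem isPtX_j (A : ValuationSubring Qb) (M : ℕ) (c : Option (kA A))
    (Q : Place (kA A) (FkM A M)) : IsPtX A M (xk A M) c Q ↔ IsPt A M c Q := by
  cases c <;> exact Iff.rfl

theorem fcStatementX_j (A : ValuationSubring Qb) (M : ℕ) [NeZero M] :
    FCStatementX A M (xF M) (xk A M) ↔ FCStatement A M := by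
  unfold FCStatementX FCStatement
  simp only [tubeX_j, isPtX_j]

theorem lpStatementX_j (A : ValuationSubring Qb) (M : ℕ) [NeZero M] :
    LPStatementX A M (xF M) (xk A M) ↔ LPStatement A M := by
  unfold LPStatementX LPStatement
  simp only [tubeX_j, isPtX_j]

theorem sepStatementX_j (A : ValuationSubring Qb) (M : ℕ) [NeZero M] :
    SEPStatementX A M (xF M) (xk A M) ↔ SEPStatement A M := by
  unfold SEPStatementX SEPStatement
  simp only [tubeX_j, isPtX_j]

/-! ### the assembly -/

variable (M ℓ : ℕ) [NeZero M] (hℓ : ℓ.Prime) (hℓM : ¬ ℓ ∣ M)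
  (A : ValuationSubring Qb) (hA : A.LiesOverPrime ℓ)
  (x : FM M) (y : FkM A M) (hy : Transcendental (kA A) y)

include hℓ hℓM hA hy

open Classical in
/-- the finite set of points of the special fibre over `c` -/
theorem exists_ptsX (c : Option (kA A)) :
    ∃ 𝔊 : Finset (Place (kA A) (FkM A M)), 𝔊.Nonempty ∧ ∀ Q, Q ∈ 𝔊 ↔ IsPtX A M y c Q := by
  have : IsAlgClosed (kA A) := Fermat.Agent.S18.H9.resAlgClosed _ A
  have : FF1 (kA A) (FkM A M) := Fermat.Agent.S18.H383.ff1_residue M ℓ hℓ hℓM A hA
  have hchar := hchar_residue M ℓ hℓ hℓM A hA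
  cases c with
  | some c =>
    have ht := transcendental_sub_algebraMap hy c
    have h0 := ne_zero_of_transcendental ht
    have hfin := finite_ord_ne_zero (K := kA A) _ h0
    refine ⟨hfin.toFinset.filter fun Q => 0 < Q.ord (y - algebraMap (kA A) (FkM A M) c),
      ?_, ?_⟩
    · obtain ⟨Q, hQ⟩ := Fermat.Agent.S18.H905.exists_place_ord_pos_fullC (kA A) M hchar _ ht
      refine ⟨Q, ?_⟩
      rw [Finset.mem_filter, Set.Finite.mem_toFinset]
      exact ⟨ne_of_gt hQ, hQ⟩
    · intro Q
      rw [Finset.mem_filter, Set.Finite.mem_toFinset]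
      show _ ↔ InMax Q (y - algebraMap (kA A) (FkM A M) c)
      constructor
      · rintro ⟨-, h⟩
        exact inMax_of_ord_pos (P := Q) (f := y - algebraMap (kA A) (FkM A M) c) h
      · intro h
        have h' : 0 < Q.ord (y - algebraMap (kA A) (FkM A M) c) := InMax.ord_pos h h0
        exact ⟨ne_of_gt h', h'⟩
  | none =>
    have h0 := ne_zero_of_transcendental hy
    have hfin := finite_ord_ne_zero (K := kA A) _ h0
    refine ⟨hfin.toFinset.filter fun Q => Q.ord y < 0, ?_, ?_⟩
    · obtain ⟨Q, hQ⟩ := Fermat.Agent.S18.H905.exists_place_ord_neg_fullC (kA A) M hchar _ hy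
      refine ⟨Q, ?_⟩
      rw [Finset.mem_filter, Set.Finite.mem_toFinset]
      exact ⟨ne_of_lt hQ, hQ⟩
    · intro Q
      rw [Finset.mem_filter, Set.Finite.mem_toFinset]
      show _ ↔ Q.ord y < 0
      constructor
      · rintro ⟨-, h⟩
        exact h
      · intro h
        exact ⟨ne_of_lt h, h⟩

/-- the fibre over `c` -/
theorem exists_fibreX (hFC : FCStatementX A M x y) (hLP : LPStatementX A M x y)
    (hSEP : SEPStatementX A M x y) (c : Option (kA A)) :
    ∃ Φ : Fibre (ctx A M), Φ.𝔉 = tubeX A M x c ∧ ∀ Q, Q ∈ Φ.𝔊 ↔ IsPtX A M y c Q := by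
  have : FF1 Qb (FM M) := H864.ff1_modularFunctionFieldBar M
  obtain ⟨𝔊, hne, h𝔊⟩ := exists_ptsX M ℓ hℓ hℓM A hA y hy c
  refine ⟨{ 𝔉 := tubeX A M x c
            𝔊 := 𝔊
            ne := hne
            res := fun P _ f hf => exists_inMax_sub_of_deg FF1.deg_eq_one P f hf
            fin := fun u hu => (finite_ord_ne_zero (K := Qb) u hu).subset fun P hP => hP.2
            FC := fun u hu => hFC c 𝔊 h𝔊 u hu
            LP := fun Q hQ => by
              obtain ⟨t, h1, h2, h3⟩ := hLP c Q ((h𝔊 Q).1 hQ)
              exact ⟨t, h1, h2, fun Q' hQ' hne' => h3 Q' ((h𝔊 Q').1 hQ') hne'⟩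
            SEP := by
              obtain ⟨s, h1, h2⟩ := hSEP c
              exact ⟨s, h1, fun Q hQ Q' hQ' a ha ha' =>
                h2 Q Q' ((h𝔊 Q).1 hQ) ((h𝔊 Q').1 hQ') a ha ha'⟩ }, rfl, h𝔊⟩

/-- **node_rim from the leaves of an arbitrary coordinate pair `(x, y)`**: the place reduction
map exists. -/
theorem node_rim_of_leavesX (hFC : FCStatementX A M x y) (hLP : LPStatementX A M x y)
    (hSEP : SEPStatementX A M x y) : ReductionInputsModL A M := by
  have : IsAlgClosed (kA A) := Fermat.Agent.S18.H9.resAlgClosed _ A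
  have : FF1 Qb (FM M) := H864.ff1_modularFunctionFieldBar M
  have : FF1 (kA A) (FkM A M) := Fermat.Agent.S18.H383.ff1_residue M ℓ hℓ hℓM A hA
  have hfib := exists_fibreX M ℓ hℓ hℓM A hA x y hy hFC hLP hSEP
  choose Φ hΦ𝔉 hΦ𝔊 using hfib
  have hresK : ∀ (P : Place Qb (FM M)) (f : FM M), 0 ≤ P.ord f →
      ∃ c : Qb, InMax P (f - algebraMap Qb (FM M) c) :=
    fun P f hf => exists_inMax_sub_of_deg FF1.deg_eq_one P f hf
  have hresk : ∀ (Q : Place (kA A) (FkM A M)) (g : FkM A M), 0 ≤ Q.ord g →
      ∃ a : kA A, InMax Q (g - algebraMap (kA A) (FkM A M) a) :=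
    fun Q g hg => exists_inMax_sub_of_deg FF1.deg_eq_one Q g hg
  -- the atlas
  let 𝔄 : Atlas (ctx A M) (Option (kA A)) :=
    { Φ := Φ
      cover := by
        intro P
        by_cases h : ∃ a : A, InMax P (x - algebraMap Qb (FM M) (a : Qb))
        · obtain ⟨a, ha⟩ := h
          refine ⟨some (residue A a), ?_⟩
          rw [hΦ𝔉]
          exact ⟨a, rfl, ha⟩
        · refine ⟨none, ?_⟩
          rw [hΦ𝔉]
          exact h
      disj := by
        intro i j P hi hj
        rw [hΦ𝔉] at hi hj
        cases i with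
        | some c =>
          cases j with
          | some c' =>
            obtain ⟨a, rfl, ha⟩ := hi
            obtain ⟨a', rfl, ha'⟩ := hj
            have := value_unique ha ha'
            rw [Subtype.ext this]
          | none =>
            obtain ⟨a, -, ha⟩ := hi
            exact absurd ⟨a, ha⟩ hj
        | none =>
          cases j with
          | some c' =>
            obtain ⟨a, -, ha⟩ := hj
            exact absurd ⟨a, ha⟩ hi
          | none => rfl
      cover' := by
        intro Q
        by_cases h : Q.ord y < 0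
        · exact ⟨none, (hΦ𝔊 none Q).2 h⟩
        · obtain ⟨a, ha⟩ := hresk Q y (not_lt.mp h)
          exact ⟨some a, (hΦ𝔊 (some a) Q).2 ha⟩
      disj' := by
        intro i j Q hi hj
        have hi' := (hΦ𝔊 i Q).1 hi
        have hj' := (hΦ𝔊 j Q).1 hj
        cases i with
        | some c =>
          cases j with
          | some c' =>
            have : c = c' := value_unique (P := Q) hi' hj'
            rw [this]
          | none =>
            have h1 : 0 ≤ Q.ord y := ord_nonneg_of_inMax_sub (P := Q) hi'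
            have h2 : Q.ord y < 0 := hj'
            omega
        | none =>
          cases j with
          | some c' =>
            have h1 : 0 ≤ Q.ord y := ord_nonneg_of_inMax_sub (P := Q) hj'
            have h2 : Q.ord y < 0 := hi'
            omega
          | none => rfl }
  obtain ⟨r, hdeg, hr⟩ := exists_specialisesDivisors A (residue A) (FM M) (FkM A M)
    residue_surjective (residue_eq_zero_iff_not_isUnit A) 𝔄 hresK hresk
  exact ⟨r, ⟨hdeg, hr⟩, Fermat.Agent.S37.H98.gen M ℓ hℓ hℓM A hA⟩

end Fermat.Agent.S37.H826
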